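import Mathlib

/-!
# RIB / glue (G2) : extension of scalars `F ⊆ k` for kernels of families of operators (Mathlib only)

`W` an `F`-vector space, `k / F` a field extension, `f^k := f.baseChange k` on `k ⊗[F] W`.

* `baseChange_eq_zero_iff` : in coordinates w.r.t. a basis of `k / F`.
* `baseChange_transfer` : `(∀ w, (∀ j, f j w = 0) → g w = 0) → (∀ v, (∀ j, (f j)^k v = 0) → g^k v = 0)`.
* `finrank_iInf_ker_baseChange` : `dim_k ⨅ ker (f j)^k = dim_F ⨅ ker (f j)`.
* `finrank_baseChange'` : `dim_k (k ⊗ W) = dim_F W`.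
-/

set_option autoImplicit false

namespace Fermat.Agent.RIB

open Module TensorProduct

variable {F k W W' : Type*} [Field F] [Field k] [Algebra F k] [AddCommGroup W] [Module F W]
  [AddCommGroup W'] [Module F W']

/-- `f^k (∑ b_i ⊗ w_i) = ∑ b_i ⊗ f w_i` -/
theorem baseChange_sum_tmul {ι : Type*} (b : ι → k) (f : W →ₗ[F] W') (c : ι →₀ W) :
    f.baseChange k (c.sum fun i w => b i ⊗ₜ[F] w) = (c.mapRange f (map_zero f)).sum
      fun i w => b i ⊗ₜ[F] w := by
  rw [Finsupp.sum_mapRange_index (fun i => by simp), Finsupp.sum, map_sum]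
  rfl

/-- coordinates -/
theorem baseChange_sum_tmul_eq_zero_iff {ι : Type*} (b : Basis ι F k) (f : W →ₗ[F] W')
    (c : ι →₀ W) :
    f.baseChange k (c.sum fun i w => b i ⊗ₜ[F] w) = 0 ↔ ∀ i, f (c i) = 0 := by
  rw [baseChange_sum_tmul]
  constructor
  · intro h i
    have := TensorProduct.sum_tmul_basis_left_eq_zero b _ h
    have h2 := DFunLike.congr_fun this i
    simpa using h2
  · intro h
    have : c.mapRange f (map_zero f) = 0 := by
      ext i
      simpa using h i
    rw [this]
    simp

/-- **implication transfer** : turns statements on `W` into statements on `k ⊗ W`. -/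
theorem baseChange_transfer {J : Type*} {W'' : Type*} [AddCommGroup W''] [Module F W'']
    (f : J → W →ₗ[F] W') (g : W →ₗ[F] W'')
    (h : ∀ w, (∀ j, f j w = 0) → g w = 0) (v : k ⊗[F] W)
    (hv : ∀ j, (f j).baseChange k v = 0) : g.baseChange k v = 0 := by
  obtain ⟨c, rfl⟩ := TensorProduct.eq_repr_basis_left (Basis.ofVectorSpace F k) v
  rw [baseChange_sum_tmul_eq_zero_iff]
  intro i
  exact h _ fun j => (baseChange_sum_tmul_eq_zero_iff _ (f j) c).1 (hv j) i

/-- the kernel of a family after base change is the base change of the kernel. -/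
theorem iInf_ker_baseChange {J : Type*} (f : J → W →ₗ[F] W') :
    (⨅ j, LinearMap.ker ((f j).baseChange k)) =
      LinearMap.range ((⨅ j, LinearMap.ker (f j)).subtype.baseChange k) := by
  apply le_antisymm
  · intro v hv
    rw [Submodule.mem_iInf] at hv
    obtain ⟨c, rfl⟩ := TensorProduct.eq_repr_basis_left (Basis.ofVectorSpace F k) v
    have hc : ∀ i, c i ∈ ⨅ j, LinearMap.ker (f j) := by
      intro i
      rw [Submodule.mem_iInf]
      intro j
      exact (baseChange_sum_tmul_eq_zero_iff _ (f j) c).1 (hv j) i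
    refine Submodule.sum_mem _ fun i _ => ?_
    exact ⟨(Basis.ofVectorSpace F k) i ⊗ₜ[F] ⟨c i, hc i⟩, by simp⟩
  · rintro _ ⟨u, rfl⟩
    rw [Submodule.mem_iInf]
    intro j
    rw [LinearMap.mem_ker, ← LinearMap.comp_apply, ← LinearMap.baseChange_comp]
    have : (f j) ∘ₗ (⨅ j, LinearMap.ker (f j)).subtype = 0 := by
      ext w
      have := w.2
      rw [Submodule.mem_iInf] at this
      exact this j
    rw [this]
    simp

theorem finrank_baseChange' : finrank k (k ⊗[F] W) = finrank F W :=
  Module.finrank_baseChange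

/-- **dimension of the common kernel after base change** -/
theorem finrank_iInf_ker_baseChange {J : Type*} (f : J → W →ₗ[F] W') :
    finrank k ↥(⨅ j, LinearMap.ker ((f j).baseChange k)) =
      finrank F ↥(⨅ j, LinearMap.ker (f j)) := by
  rw [iInf_ker_baseChange, LinearMap.finrank_range_of_inj, finrank_baseChange']
  exact Module.Flat.lTensor_preserves_injective_linearMap _ (Submodule.subtype_injective _)

end Fermat.Agent.RIB
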