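import Mathlib

/-!
# RIB / glue (G1) : the local Hecke ring of a generalised eigenspace (Mathlib only)

* `exists_augmentation` : a commutative `k`-algebra generated by elements `tt i` with `tt i - a i` nilpotent is local, with an
  augmentation `π : R →ₐ[k] k`, `π (tt i) = a i`, whose kernel is the nilradical = the maximal ideal.
* `exists_hecke_ring` : `V ≠ 0` a finite dimensional `k`-space, `T i` commuting endomorphisms with `T i - a i` nilpotent.  Then the
  `k`-algebra `R` generated by the `T i` is a finite local `k`-algebra acting faithfully on `V`.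
-/

set_option autoImplicit false

namespace Fermat.Agent.RIB

open Module

section Aug

variable {k R : Type*} [Field k] [CommRing R] [Nontrivial R] [Algebra k R] {ι : Type*}

/-- every element of `R` is a constant plus a nilpotent. -/
theorem exists_const_add_nilpotent (tt : ι → R) (a : ι → k)
    (hgen : Algebra.adjoin k (Set.range tt) = ⊤)
    (hnil : ∀ i, IsNilpotent (tt i - algebraMap k R (a i))) (x : R) :
    ∃ c : k, IsNilpotent (x - algebraMap k R c) := by
  have hx : x ∈ Algebra.adjoin k (Set.range tt) := by rw [hgen]; trivial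
  induction hx using Algebra.adjoin_induction with
  | mem x hx =>
    obtain ⟨i, rfl⟩ := hx
    exact ⟨a i, hnil i⟩
  | algebraMap c => exact ⟨c, by simp⟩
  | add x y _ _ hx hy =>
    obtain ⟨c, hc⟩ := hx
    obtain ⟨d, hd⟩ := hy
    refine ⟨c + d, ?_⟩
    have : x + y - algebraMap k R (c + d) = (x - algebraMap k R c) + (y - algebraMap k R d) := by
      rw [map_add]; ring
    rw [this]
    exact (Commute.all _ _).isNilpotent_add hc hd
  | mul x y _ _ hx hy =>
    obtain ⟨c, hc⟩ := hx
    obtain ⟨d, hd⟩ := hy
    refine ⟨c * d, ?_⟩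
    have : x * y - algebraMap k R (c * d) =
        (x - algebraMap k R c) * y + algebraMap k R c * (y - algebraMap k R d) := by
      rw [map_mul]; ring
    rw [this]
    exact (Commute.all _ _).isNilpotent_add ((Commute.all _ _).isNilpotent_mul_right hc)
      ((Commute.all _ _).isNilpotent_mul_left hd)

theorem const_unique {x : R} {c d : k} (hc : IsNilpotent (x - algebraMap k R c))
    (hd : IsNilpotent (x - algebraMap k R d)) : c = d := by
  by_contra hne
  have h1 : IsNilpotent (algebraMap k R (d - c)) := by
    have : algebraMap k R (d - c) = (x - algebraMap k R c) - (x - algebraMap k R d) := by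
      rw [map_sub]; ring
    rw [this]
    exact (Commute.all _ _).isNilpotent_sub hc hd
  have h2 : IsUnit (algebraMap k R (d - c)) :=
    (IsUnit.mk0 _ (sub_ne_zero.mpr (Ne.symm hne))).map (algebraMap k R)
  exact not_isUnit_zero (M₀ := R) (by
    obtain ⟨n, hn⟩ := h1
    rw [← hn]
    exact h2.pow n)

/-- **the augmentation** -/
theorem exists_augmentation (tt : ι → R) (a : ι → k)
    (hgen : Algebra.adjoin k (Set.range tt) = ⊤)
    (hnil : ∀ i, IsNilpotent (tt i - algebraMap k R (a i))) :
    ∃ π : R →ₐ[k] k, (∀ i, π (tt i) = a i) ∧ (∀ x, IsNilpotent (x - algebraMap k R (π x))) ∧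
      (∀ x, π x = 0 ↔ IsNilpotent x) ∧ (∀ x, π x ≠ 0 ↔ IsUnit x) := by
  choose f hf using exists_const_add_nilpotent tt a hgen hnil
  have huniq : ∀ (x : R) (c : k), IsNilpotent (x - algebraMap k R c) → f x = c :=
    fun x c hc => const_unique (hf x) hc
  let π : R →ₐ[k] k :=
    { toFun := f
      map_one' := huniq 1 1 (by simp)
      map_zero' := huniq 0 0 (by simp)
      map_add' := fun x y => huniq _ _ (by
        have : x + y - algebraMap k R (f x + f y) =
            (x - algebraMap k R (f x)) + (y - algebraMap k R (f y)) := by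
          rw [map_add]; ring
        rw [this]
        exact (Commute.all _ _).isNilpotent_add (hf x) (hf y))
      map_mul' := fun x y => huniq _ _ (by
        have : x * y - algebraMap k R (f x * f y) =
            (x - algebraMap k R (f x)) * y + algebraMap k R (f x) * (y - algebraMap k R (f y)) := by
          rw [map_mul]; ring
        rw [this]
        exact (Commute.all _ _).isNilpotent_add ((Commute.all _ _).isNilpotent_mul_right (hf x))
          ((Commute.all _ _).isNilpotent_mul_left (hf y)))
      commutes' := fun c => huniq _ _ (by simp) }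
  have hπ : ∀ x, π x = f x := fun _ => rfl
  have h0 : ∀ x, π x = 0 ↔ IsNilpotent x := by
    intro x
    constructor
    · intro h
      have := hf x
      rw [← hπ, h, map_zero, sub_zero] at this
      exact this
    · intro h
      exact huniq x 0 (by simpa using h)
  refine ⟨π, fun i => huniq _ _ (hnil i), hf, h0, fun x => ?_⟩
  constructor
  · intro h
    have h1 : IsUnit (algebraMap k R (π x)) := (IsUnit.mk0 _ h).map (algebraMap k R)
    have h2 := (hf x).isUnit_add_left_of_commute h1 (Commute.all _ _)
    rw [hπ] at h2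
    simpa using h2
  · intro h h'
    obtain ⟨n, hn⟩ := (h0 x).1 h'
    exact not_isUnit_zero (M₀ := R) (by rw [← hn]; exact h.pow n)

theorem isLocalRing_of_augmentation (π : R →ₐ[k] k) (h : ∀ x, π x ≠ 0 ↔ IsUnit x) :
    IsLocalRing R := by
  refine IsLocalRing.of_isUnit_or_isUnit_one_sub_self fun x => ?_
  by_cases hx : π x = 0
  · right
    rw [← h, map_sub, map_one, hx, sub_zero]
    exact one_ne_zero
  · left
    exact (h x).1 hx

end Aug

section Hecke

universe u

variable {k : Type*} [Field k] {V : Type u} [AddCommGroup V] [Module k V] [FiniteDimensional k V]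
  [Nontrivial V] {ι : Type*}

/-- **(G1)** the local Hecke ring of a generalised eigenspace. -/
theorem exists_hecke_ring (T : ι → Module.End k V) (hcomm : ∀ i j, T i * T j = T j * T i)
    (a : ι → k) (hnil : ∀ i, IsNilpotent (T i - algebraMap k (Module.End k V) (a i))) :
    ∃ (R : Type u) (_ : CommRing R) (_ : IsLocalRing R) (_ : Algebra k R) (_ : Module R V)
      (_ : IsScalarTower k R V) (_ : Module.Finite k R) (tt : ι → R) (π : R →ₐ[k] k),
      (∀ i v, tt i • v = T i v) ∧ Algebra.adjoin k (Set.range tt) = ⊤ ∧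
      (∀ x : R, (∀ v : V, x • v = 0) → x = 0) ∧ (∀ i, π (tt i) = a i) ∧
      (∀ x, x ∈ IsLocalRing.maximalIdeal R ↔ π x = 0) ∧
      (∀ x ∈ IsLocalRing.maximalIdeal R, IsNilpotent x) ∧
      (∀ f ∈ Algebra.adjoin k (Set.range T), ∃ x : R, ∀ v, x • v = f v) ∧
      (∀ g : Module.End k V, (∀ i, g * T i = T i * g) → ∀ (x : R) (v : V), g (x • v) = x • g v) := by
  set 𝔄 : Subalgebra k (Module.End k V) := Algebra.adjoin k (Set.range T) with h𝔄
  have hc : ∀ x ∈ Set.range T, ∀ y ∈ Set.range T, x * y = y * x := by
    rintro _ ⟨i, rfl⟩ _ ⟨j, rfl⟩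
    exact hcomm i j
  letI instC : CommRing 𝔄 := Algebra.adjoinCommRingOfComm k hc
  let tt : ι → 𝔄 := fun i => ⟨T i, Algebra.subset_adjoin ⟨i, rfl⟩⟩
  have hgen : Algebra.adjoin k (Set.range tt) = ⊤ := by
    have h1 : (Algebra.adjoin k (Set.range tt)).map 𝔄.val = 𝔄 := by
      rw [AlgHom.map_adjoin, ← Set.range_comp]
      rfl
    apply Subalgebra.map_injective (f := 𝔄.val) Subtype.val_injective
    rw [h1, Algebra.map_top, Subalgebra.range_val]
  have hnil' : ∀ i, IsNilpotent (tt i - algebraMap k 𝔄 (a i)) := by
    intro i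
    obtain ⟨n, hn⟩ := hnil i
    exact ⟨n, Subtype.ext hn⟩
  obtain ⟨π, hπa, -, hπ0, hπu⟩ := exists_augmentation tt a hgen hnil'
  haveI instL : IsLocalRing 𝔄 := isLocalRing_of_augmentation π hπu
  have hmax : ∀ x : 𝔄, x ∈ IsLocalRing.maximalIdeal 𝔄 ↔ π x = 0 := by
    intro x
    rw [IsLocalRing.mem_maximalIdeal, mem_nonunits_iff, ← hπu, not_not]
  refine ⟨𝔄, instC, instL, inferInstance, inferInstance, inferInstance, inferInstance, tt, π,
    fun i v => rfl, hgen, fun x hx => Subtype.ext (LinearMap.ext hx), hπa, hmax,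
    fun x hx => (hπ0 x).1 ((hmax x).1 hx), fun f hf => ⟨⟨f, hf⟩, fun v => rfl⟩, ?_⟩
  intro g hg x v
  obtain ⟨x, hx⟩ := x
  show g (x v) = x (g v)
  induction hx using Algebra.adjoin_induction generalizing v with
  | mem x hx =>
    obtain ⟨i, rfl⟩ := hx
    exact LinearMap.congr_fun (hg i) v
  | algebraMap c => simp [Module.algebraMap_end_apply]
  | add x y _ _ hx hy => simp [hx, hy]
  | mul x y _ _ hx hy => simp [hx, hy]

end Hecke

end Fermat.Agent.RIB
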